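/-
S44 / DEPTH (architect helper219): THE INSTANCE.  Definitions.

* `Lf A H hH`  : the fixed field of a subgroup `H` of the inertia group, as an extension of the
                 inertia field `K0 A`;
* `AL A L`     : the valuation ring `A ∩ L`;
* `bcK K N`    : base change of constants `FK K N → FN N` for a field `K ⊆ ℚ̄`;
* `algFK`      : `FK K' N` as an algebra over `FK K N`;
* `IsGauss A V`: `V` is the Gauss valuation ring (attached to `A`) of `FK K N`;
* `resL`       : the restriction to `L` of an automorphism of `ℚ̄` preserving `L`.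
-/
import Fermat.Agent.S44.Depth.Top.Defs
import Fermat.Agent.S44.Depth.MainDefs
import Fermat.Agent.BAD.Bridge.Defs
import Fermat.Agent.BAD.LevelQ.Mod.GalDefs
import Fermat.Agent.S28.Export.Red

set_option autoImplicit false

noncomputable section

namespace Fermat.Agent.S44.Depth.Inst

open ModularCurve AlgebraicCurve Fermat.Agent.S24 Fermat.Agent.GAL Fermat.Agent.S44.X
  Fermat.Agent.Lib.InertiaField Fermat.Agent.S18.Descent Fermat.Agent.BAD.Bridge
  Fermat.Agent.S28.Export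

/-- The fixed field of a subgroup `H` of the inertia group, as an extension of `K0 A`. -/
def Lf (A : ValuationSubring S44.Qb) (H : Subgroup S44.GQ) (hH : H ≤ Iner A) :
    IntermediateField (K0 A) S44.Qb where
  carrier := {z | ∀ σ ∈ H, σ z = z}
  mul_mem' := fun {a b} ha hb σ hσ => by rw [map_mul, ha σ hσ, hb σ hσ]
  one_mem' := fun σ _ => map_one σ
  add_mem' := fun {a b} ha hb σ hσ => by rw [map_add, ha σ hσ, hb σ hσ]
  zero_mem' := fun σ _ => map_zero σ
  algebraMap_mem' := fun c σ hσ => (mem_K0_iff A (c : S44.Qb)).mp c.2 σ (hH hσ)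
  inv_mem' := fun a ha σ hσ => by rw [map_inv₀, ha σ hσ]

theorem mem_Lf_iff {A : ValuationSubring S44.Qb} {H : Subgroup S44.GQ} {hH : H ≤ Iner A}
    (z : S44.Qb) : z ∈ Lf A H hH ↔ ∀ σ ∈ H, σ z = z := Iff.rfl

/-- `A ∩ L`. -/
def AL (A : ValuationSubring S44.Qb) (L : IntermediateField (K0 A) S44.Qb) : ValuationSubring L :=
  A.comap (algebraMap L S44.Qb)

theorem mem_AL_iff {A : ValuationSubring S44.Qb} {L : IntermediateField (K0 A) S44.Qb} (z : L) :
    z ∈ AL A L ↔ (z : S44.Qb) ∈ A := Iff.rfl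

section Generic

variable (K K' : Type*) [Field K] [Field K'] [Algebra ℚ K] [Algebra ℚ K']

/-- Base change of the constants to `ℚ̄`. -/
def bcK [Algebra K S44.Qb] (N : ℕ) : FK K N →+* FN N :=
  baseChangeMap (modularFunctionFieldFull N) (algebraMap K S44.Qb)

theorem coe_bcK [Algebra K S44.Qb] (N : ℕ) (x : FK K N) :
    ((bcK K N x : FN N) : LaurentSeries Kbar) =
      coeffMap (algebraMap K S44.Qb) (x : LaurentSeries K) := rfl

/-- Base change of the constants from `K` to `K'`. -/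
def upF [Algebra K K'] (N : ℕ) : FK K N →+* FK K' N :=
  baseChangeMap (modularFunctionFieldFull N) (algebraMap K K')

/-- `FK K' N` as an algebra over `FK K N`. -/
@[reducible] def algFK [Algebra K K'] (N : ℕ) : Algebra (FK K N) (FK K' N) :=
  (upF K K' N).toAlgebra

/-- `V` is the Gauss valuation ring of `FK K N` attached to `A`. -/
def IsGauss (A : ValuationSubring S44.Qb) {K : Type*} [Field K] [Algebra ℚ K] [Algebra K S44.Qb]
    {N : ℕ} (V : ValuationSubring (FK K N)) : Prop :=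
  ∀ f : FK K N, f ∈ V ↔ ∃ g, Red A ((bcK K N f : FN N) : LaurentSeries S44.Qb) g

end Generic

/-- The restriction to `L` of an automorphism of `ℚ̄` which preserves `L`. -/
def resL {A : ValuationSubring S44.Qb} (L : IntermediateField (K0 A) S44.Qb) (τ : S44.GQ)
    (h : ∀ z ∈ L, τ z ∈ L) (h' : ∀ z ∈ L, τ⁻¹ z ∈ L) : L ≃+* L where
  toFun z := ⟨τ z, h z z.2⟩
  invFun z := ⟨τ⁻¹ z, h' z z.2⟩
  left_inv z := Subtype.ext (by
    show τ⁻¹ (τ (z : S44.Qb)) = z
    rw [← AlgEquiv.mul_apply, inv_mul_cancel, AlgEquiv.one_apply])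
  right_inv z := Subtype.ext (by
    show τ (τ⁻¹ (z : S44.Qb)) = z
    rw [← AlgEquiv.mul_apply, mul_inv_cancel, AlgEquiv.one_apply])
  map_mul' a b := Subtype.ext (map_mul τ _ _)
  map_add' a b := Subtype.ext (map_add τ _ _)

@[simp] theorem coe_resL {A : ValuationSubring S44.Qb} (L : IntermediateField (K0 A) S44.Qb)
    (τ : S44.GQ) (h : ∀ z ∈ L, τ z ∈ L) (h' : ∀ z ∈ L, τ⁻¹ z ∈ L) (z : L) :
    ((resL L τ h h' z : L) : S44.Qb) = τ z := rfl

/-- The pointwise stabiliser of `E[p]` in the inertia group, as a subgroup. -/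
def HE (P : FreyPackage) (A : ValuationSubring S44.Qb) : Subgroup S44.GQ where
  carrier := stabE P A
  mul_mem' := fun {a b} ha hb => ⟨mul_mem ha.1 hb.1, fun x => by rw [mul_smul, hb.2, ha.2]⟩
  one_mem' := ⟨one_mem _, fun x => one_smul _ x⟩
  inv_mem' := fun {a} ha => ⟨inv_mem ha.1, fun x => by rw [inv_smul_eq_iff, ha.2]⟩

theorem HE_le (P : FreyPackage) (A : ValuationSubring S44.Qb) : HE P A ≤ Iner A :=
  fun _ h => h.1

/-- The pointwise stabiliser of `μ_p` in the inertia group. -/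
def Hmu (A : ValuationSubring S44.Qb) (p : ℕ) : Subgroup S44.GQ where
  carrier := {σ | σ ∈ Iner A ∧ ∀ ζ : S44.Qb, ζ ^ p = 1 → σ ζ = ζ}
  mul_mem' := fun {a b} ha hb => ⟨mul_mem ha.1 hb.1, fun ζ hζ => by
    rw [AlgEquiv.mul_apply, hb.2 ζ hζ, ha.2 ζ hζ]⟩
  one_mem' := ⟨one_mem _, fun _ _ => rfl⟩
  inv_mem' := fun {a} ha => ⟨inv_mem ha.1, fun ζ hζ => by
    conv_lhs => rw [← ha.2 ζ hζ]
    rw [← AlgEquiv.mul_apply, inv_mul_cancel, AlgEquiv.one_apply]⟩

theorem Hmu_le (A : ValuationSubring S44.Qb) (p : ℕ) : Hmu A p ≤ Iner A := fun _ h => h.1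

/-- `K₀(E[p])`. -/
abbrev LE (P : FreyPackage) (A : ValuationSubring S44.Qb) : IntermediateField (K0 A) S44.Qb :=
  Lf A (HE P A) (HE_le P A)

/-- `K₀(μ_p)`. -/
abbrev Lmu (A : ValuationSubring S44.Qb) (p : ℕ) : IntermediateField (K0 A) S44.Qb :=
  Lf A (Hmu A p) (Hmu_le A p)

end Fermat.Agent.S44.Depth.Inst

end
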