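/-
S44 / DEPTH (architect helper219): THE INSTANCE.  Definitions of block MD
(`Centred`, `NodeModelD`), verbatim from the skeleton.
-/
import Fermat.Agent.S44.Depth.Inst.Defs
import Fermat.Agent.GAL.KLLevel

set_option autoImplicit false

noncomputable section

namespace Fermat.Agent.S44.Depth.Inst

open ModularCurve AlgebraicCurve Fermat.Agent.S24 Fermat.Agent.GAL Fermat.Agent.S44.X
  Fermat.Agent.Lib.InertiaField Fermat.Agent.S18.Descent Fermat.Agent.BAD.Bridge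
  Fermat.Agent.S28.Export Fermat.Agent.S36.BP Fermat.Agent.BAD.LevelQ.Mod
open Fermat.Agent.S18 (IsUnif)

/-- `w` is centred at the point `R₀`. -/
def Centred (A : ValuationSubring S44.Qb) (M p : ℕ) (w : Place (kA A) (Fk A M))
    (R₀ : Subring (FK (K0 A) (M * p))) : Prop :=
  ∀ r ∈ R₀, ∀ g : Fk A M,
    Red A ((bcK (K0 A) (M * p) r : FN (M * p)) : LaurentSeries S44.Qb) (g : LaurentSeries (kA A)) →
      0 ≤ w.ord g

/-- **Node ModelD**: what the route DEPTH needs from the model of `X₀(4 M' p)` over `A0 A`. -/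
def NodeModelD : Prop :=
  ∀ (p : ℕ) [NeZero p] (M' : ℕ) [NeZero M'], p.Prime → 5 ≤ p → ¬ p ∣ M' → ∀ hc : Nat.Coprime p 4,
    ∀ A : ValuationSubring S44.Qb, A.LiesOverPrime p →
      ∃ (Vi₀ V0₀ : ValuationSubring (FK (K0 A) (M' * 4 * p))) (x₀ y₀ : FK (K0 A) (M' * 4 * p))
        (Smi Sm0 Nd : Set (Subring (FK (K0 A) (M' * 4 * p)))),
        IsGauss A Vi₀ ∧ NodalModel (A0 A) (p : K0 A) 1 Vi₀ V0₀ x₀ y₀ Smi Sm0 Nd ∧
        (∃ c : S44.Qb, c ≠ 0 ∧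
          bcK (K0 A) (M' * 4 * p) x₀ = algebraMap S44.Qb (FN (M' * 4 * p)) c * xU p M' hc) ∧
        ∀ w : Place (kA A) (Fk A (M' * 4)), ∃ R₀, Centred A (M' * 4) p w R₀ ∧
          ((R₀ ∈ Nd ∧ 0 ≤ w.ord (jk A (M' * 4))) ∨
            (R₀ ∈ Smi ∧ (0 ≤ w.ord (jk A (M' * 4)) → RUnit R₀ x₀)))

end Fermat.Agent.S44.Depth.Inst

end
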