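/-
S44 / DEPTH, the instance (chief helper219, final assembly helper253): block I-AUT + BCData (helper51).

Generic fields `K ⊆ K' ⊆ ℚ̄`:
* `bcData`        : the base change datum `BCData` for `FK K N ⊆ FK K' N`;
* `autF_fix`, `autF_const`, (`bcK_gal` = GL-4) : the coefficientwise automorphism `gal τ N`;
* `tow`, `tow_up`, `tow_const`, `bcK_tow`      : the tower `FK K₁ N → FK K' N`;
* `exists_rel`, `exists_hrel`, `exists_hrel₀`  : relations in `FN N` modulo `n`-th powers descend to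
  relations in `FK K N` modulo constants and `n`-th powers.
-/
import Fermat.Agent.S44.Depth.Inst.GL.Model
import Fermat.Agent.S44.Depth.Inst.GL.Span
import Fermat.Agent.S44.Depth.Inst.GL.PowDesc

set_option autoImplicit false
set_option linter.unusedSectionVars false

noncomputable section

namespace Fermat.Agent.S44.Depth.Inst

open ModularCurve AlgebraicCurve Fermat.Agent.S24 Fermat.Agent.GAL Fermat.Agent.S44.X
  Fermat.Agent.S18.Descent Fermat.Agent.BAD.Bridge Fermat.Agent.BAD.LevelQ.Mod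
open Fermat.Agent.S18 (IsUnif)

section BC

variable (K K' : Type*) [Field K] [Field K'] [Algebra ℚ K] [Algebra ℚ K'] [Algebra K K'] (N : ℕ)

theorem algFK_algebraMap_apply (z : FK K N) :
    letI := algFK K K' N
    algebraMap (FK K N) (FK K' N) z = upF K K' N z := rfl

/-- **The base change datum.** -/
theorem bcData [Algebra K S44.Qb] [Algebra K' S44.Qb] [IsScalarTower K K' S44.Qb]
    [Algebra.IsAlgebraic K K'] {A₀ : ValuationSubring K} {ϖ₀ : K}
    {A' : ValuationSubring K'} {ϖ : K'} {e : ℕ} {a : ℕ → K} (h₀ : IsUnif A₀ ϖ₀)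
    (hE : IsEis A₀ ϖ₀ ϖ e a) (hext : Ext A₀ A') :
    letI := algFK K K' N
    BCData A₀ ϖ₀ A' ϖ e a (FK K N) (FK K' N) := by
  let _ := algFK K K' N
  exact
    { compat := fun c => (baseChangeMap_algebraMap (algebraMap K K') c).symm
      unif₀ := h₀
      eisK := hE
      extA := hext
      spanF := spanF K K' N ϖ e hE.span }

/-- the coefficientwise automorphism fixes the small function field -/
theorem autF_fix (τ : K' ≃+* K') (h : ∀ z : K, τ (algebraMap K K' z) = algebraMap K K' z)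
    (z : FK K N) :
    letI := algFK K K' N
    gal τ N (algebraMap (FK K N) (FK K' N) z) = algebraMap (FK K N) (FK K' N) z := by
  apply Subtype.ext
  rw [coe_gal]
  show coeffMap (τ : K' →+* K') (coeffMap (algebraMap K K') (z : LaurentSeries K)) =
    coeffMap (algebraMap K K') (z : LaurentSeries K)
  ext k
  simp only [coeffMap_coeff]
  exact h _

end BC

section Aut

variable {K : Type*} [Field K] [Algebra ℚ K] (N : ℕ)

/-- the coefficientwise automorphism on the constants -/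
theorem autF_const (τ : K ≃+* K) (c : K) :
    gal τ N (algebraMap K (FK K N) c) = algebraMap K (FK K N) (τ c) :=
  baseChangeMap_algebraMap (τ : K →+* K) c

end Aut

section Tower

variable {K₀ K₁ K : Type*} [Field K₀] [Field K₁] [Field K] [Algebra ℚ K₀] [Algebra ℚ K₁]
  [Algebra ℚ K] [Algebra K₀ K₁] [Algebra K₀ K] (N : ℕ)

/-- the map `FK K₁ N → FK K N` induced by an embedding `K₁ → K` -/
def tow (φ : K₁ →+* K) : FK K₁ N →+* FK K N := baseChangeMap (modularFunctionFieldFull N) φ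

theorem coe_tow (φ : K₁ →+* K) (z : FK K₁ N) :
    ((tow N φ z : FK K N) : LaurentSeries K) = coeffMap φ (z : LaurentSeries K₁) := rfl

theorem tow_up (φ : K₁ →+* K) (hφ : ∀ c : K₀, φ (algebraMap K₀ K₁ c) = algebraMap K₀ K c)
    (z : FK K₀ N) :
    letI := algFK K₀ K₁ N
    letI := algFK K₀ K N
    tow N φ (algebraMap (FK K₀ N) (FK K₁ N) z) = algebraMap (FK K₀ N) (FK K N) z := by
  apply Subtype.ext
  show coeffMap φ (coeffMap (algebraMap K₀ K₁) (z : LaurentSeries K₀)) =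
    coeffMap (algebraMap K₀ K) (z : LaurentSeries K₀)
  ext k
  simp only [coeffMap_coeff]
  exact hφ _

theorem tow_const (φ : K₁ →+* K) (c : K₁) :
    tow N φ (algebraMap K₁ (FK K₁ N) c) = algebraMap K (FK K N) (φ c) :=
  baseChangeMap_algebraMap φ c

theorem bcK_tow [Algebra K₁ S44.Qb] [Algebra K S44.Qb] (φ : K₁ →+* K)
    (hφ : ∀ z : K₁, algebraMap K S44.Qb (φ z) = algebraMap K₁ S44.Qb z) (f : FK K₁ N) :
    bcK K N (tow N φ f) = bcK K₁ N f := by
  apply Subtype.ext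
  rw [coe_bcK, coe_bcK, coe_tow]
  ext k
  simp only [coeffMap_coeff]
  exact hφ _

end Tower

section Rel

variable {K : Type*} [Field K] [Algebra ℚ K] [Algebra K S44.Qb] [Algebra.IsAlgebraic K S44.Qb]
  {N : ℕ}

/-- a relation modulo `n`-th powers over `ℚ̄` is a relation modulo constants and `n`-th powers
over `K` -/
theorem exists_rel {n : ℕ} (hn : n ≠ 0) {a b : FK K N} (ha : a ≠ 0) (hb : b ≠ 0) (v : FN N)
    (h : bcK K N a = bcK K N b * v ^ n) :
    ∃ (c : K) (g : FK K N), c ≠ 0 ∧ g ≠ 0 ∧ a = b * algebraMap K (FK K N) c * g ^ n := by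
  have hb' : bcK K N b ≠ 0 := (map_ne_zero _).2 hb
  obtain ⟨c, g, hc, hg, e⟩ := exists_const_mul_pow K N n hn (a / b) (div_ne_zero ha hb) v
    (by rw [map_div₀, h, mul_div_cancel_left₀ _ hb'])
  refine ⟨c, g, hc, hg, ?_⟩
  rw [mul_assoc, ← e, mul_div_cancel₀ _ hb]

/-- **`hrel` of `depth_main`.**  `u`, `u₀` are models over `K` of `U₁ g₁ ^ n`, `U₀ g₀ ^ n`. -/
theorem exists_hrel {n : ℕ} (hn : n ≠ 0) (τK : K ≃+* K) (τ : S44.GQ)
    (hτ : ∀ z : K, algebraMap K S44.Qb (τK z) = τ (algebraMap K S44.Qb z))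
    {u u₀ : FK K N} (hu : u ≠ 0) (hu₀ : u₀ ≠ 0) {U₁ U₀ g₁ g₀ h : FN N} (hg₁ : g₁ ≠ 0)
    (hg₀ : g₀ ≠ 0) (e₁ : bcK K N u = U₁ * g₁ ^ n) (e₀ : bcK K N u₀ = U₀ * g₀ ^ n) {k : ℕ}
    (hrel : E.galF N τ U₁ = U₁ * U₀ ^ k * h ^ n) :
    ∃ (cst : K) (h' : FK K N), cst ≠ 0 ∧ h' ≠ 0 ∧
      gal τK N u = u * u₀ ^ k * algebraMap K (FK K N) cst * h' ^ n := by
  refine exists_rel hn ((map_ne_zero _).2 hu) (mul_ne_zero hu (pow_ne_zero k hu₀))
    (h * E.galF N τ g₁ / (g₁ * g₀ ^ k)) ?_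
  rw [bcK_gal K N τK τ hτ, map_mul, map_pow, e₁, e₀, map_mul, map_pow, hrel, div_pow, mul_pow,
    mul_pow, mul_pow]
  have h1 := pow_ne_zero n hg₁
  have h2 := pow_ne_zero n (pow_ne_zero k hg₀)
  have h3 : (g₀ ^ n) ^ k = (g₀ ^ k) ^ n := by rw [← pow_mul, ← pow_mul, mul_comm]
  rw [h3]
  field_simp

/-- **`hrel₀` of `depth_main`.** -/
theorem exists_hrel₀ {n : ℕ} (hn : n ≠ 0) (σK : K ≃+* K) (σ : S44.GQ)
    (hσ : ∀ z : K, algebraMap K S44.Qb (σK z) = σ (algebraMap K S44.Qb z))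
    {u₀ : FK K N} (hu₀ : u₀ ≠ 0) {U₀ g₀ h : FN N} (hg₀ : g₀ ≠ 0)
    (e₀ : bcK K N u₀ = U₀ * g₀ ^ n) {m : ℕ} (hrel : E.galF N σ U₀ = U₀ ^ m * h ^ n) :
    ∃ (cst : K) (h' : FK K N), cst ≠ 0 ∧ h' ≠ 0 ∧
      gal σK N u₀ = u₀ ^ m * algebraMap K (FK K N) cst * h' ^ n := by
  refine exists_rel hn ((map_ne_zero _).2 hu₀) (pow_ne_zero m hu₀)
    (h * E.galF N σ g₀ / g₀ ^ m) ?_
  rw [bcK_gal K N σK σ hσ, map_pow, e₀, map_mul, map_pow, hrel, div_pow, mul_pow, mul_pow]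
  have h2 := pow_ne_zero n (pow_ne_zero m hg₀)
  have h3 : (g₀ ^ n) ^ m = (g₀ ^ m) ^ n := by rw [← pow_mul, ← pow_mul, mul_comm]
  rw [h3]
  field_simp

end Rel

end Fermat.Agent.S44.Depth.Inst

end
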