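/-
S44 / DEPTH, the instance, block KS (helper104): the Galois relations of a `NewPair`, read on functions
(KS-2 .. KS-5 of the skeleton of helper219).
-/
import Fermat.Agent.S44.Depth.Inst.Defs

set_option autoImplicit false

noncomputable section

namespace Fermat.Agent.S44.Depth.Inst

open ModularCurve AlgebraicCurve Fermat.Agent.S24 Fermat.Agent.GAL Fermat.Agent.S44.X

theorem KS.aux_add_neg {G : Type*} [AddCommGroup G] {x y : G} (h : x = y) : x + -y = 0 := by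
  rw [h, add_neg_cancel]

theorem KS.aux_nsmul {G : Type*} [AddCommGroup G] {x y : G} {k : ℕ} (h : x = (k + 1) • x) :
    k • x + 0 • y = 0 := by
  rw [succ_nsmul] at h
  rw [zero_nsmul, add_zero]
  exact right_eq_add.mp h

/-- two Kummer units with the same class differ by an `n`-th power -/
theorem KS.exists_eq_mul_pow {N n : ℕ} {a b : E.kum N n} (h : E.cls a = E.cls b) :
    ∃ w : FN N, fn a = fn b * w ^ n := by
  have h1 : E.cls (a * b⁻¹) = 0 := by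
    rw [E.cls_mul, E.cls_inv]
    exact KS.aux_add_neg (G := E.W N n) h
  rw [E.cls_eq_zero_iff] at h1
  obtain ⟨w, hw⟩ := h1
  refine ⟨(w : FN N), ?_⟩
  have h2 : ((w ^ n : (FN N)ˣ) : FN N) = fn a * (fn b)⁻¹ := by
    have := congrArg (fun z : (FN N)ˣ => (z : FN N)) hw
    simpa [fn] using this
  rw [Units.val_pow_eq_pow_val] at h2
  rw [h2, mul_comm (fn a), ← mul_assoc, mul_inv_cancel₀ (b : (FN N)ˣ).ne_zero, one_mul]

/-- every element of `G_ℚ` acts on `μ_p` by a power `m ≥ 1` -/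
theorem KS.exists_cyc (p : ℕ) [NeZero p] (σ : S44.GQ) :
    ∃ m : ℕ, 1 ≤ m ∧ ∀ ζ : S44.Qb, ζ ^ p = 1 → σ ζ = ζ ^ m := by
  have hz : IsPrimitiveRoot ((S24.B.zetaK p : Kbarˣ) : Kbar) p :=
    IsPrimitiveRoot.coe_units_iff.2 (S24.B.isPrimitiveRoot_zetaK p)
  have h1 : (σ ((S24.B.zetaK p : Kbarˣ) : Kbar)) ^ p = 1 := by
    rw [← map_pow, hz.pow_eq_one, map_one]
  obtain ⟨m, -, hm⟩ := hz.eq_pow_of_pow_eq_one h1
  refine ⟨m + p, by have := NeZero.pos p; omega, fun ζ hζ => ?_⟩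
  obtain ⟨i, -, rfl⟩ := hz.eq_pow_of_pow_eq_one hζ
  rw [map_pow, ← hm, pow_add, ← pow_mul, ← pow_mul, ← pow_mul, mul_comm i p, pow_mul _ p i,
    hz.pow_eq_one, one_pow, mul_one, mul_comm]

variable {A : ValuationSubring S44.Qb} {P : FreyPackage} {M' : ℕ} [NeZero M']
  {W : WeierstrassCurve ℤ} {u₀ u₁ : E.kum (M' * P.p) P.p}

/-- KS-2 -/
theorem HE_le_Hmu (hN : NewPair P M' A W u₀ u₁) : HE P A ≤ Hmu A P.p := by
  intro σ hσ
  refine ⟨hσ.1, fun ζ hζ => ?_⟩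
  obtain ⟨m, hm1, hm⟩ := KS.exists_cyc P.p σ
  have h1 := hN.gal₀ σ hσ.1 m hm
  rw [(hN.stab hσ).2.1] at h1
  obtain ⟨k, rfl⟩ : ∃ k, m = k + 1 := ⟨m - 1, by omega⟩
  have h2 : k • E.cls u₀ + 0 • E.cls u₁ = 0 :=
    KS.aux_nsmul (G := E.W (M' * P.p) P.p) (x := E.cls u₀) (y := E.cls u₁) (k := k) h1
  obtain ⟨c, rfl⟩ := (hN.indep k 0 h2).1
  rw [hm ζ hζ, pow_succ, pow_mul, hζ, one_pow, one_mul]

/-- KS-3: `gal₀` in terms of functions. -/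
theorem gal₀_fn (hN : NewPair P M' A W u₀ u₁) : ∀ σ ∈ Iner A, ∀ m : ℕ,
    (∀ ζ : S44.Qb, ζ ^ P.p = 1 → σ ζ = ζ ^ m) →
      ∃ h : FN (M' * P.p), E.galF (M' * P.p) σ (fn u₀) = fn u₀ ^ m * h ^ P.p := by
  intro σ hσ m hm
  have h1 := hN.gal₀ σ hσ m hm
  rw [E.rho_cls, ← E.cls_pow] at h1
  obtain ⟨w, hw⟩ := KS.exists_eq_mul_pow h1
  exact ⟨w, by simpa [fn, E.coe_galU] using hw⟩

/-- KS-4: `gal₁` in terms of functions. -/
theorem gal₁_fn (hN : NewPair P M' A W u₀ u₁) : ∀ σ ∈ Iner A,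
    ∃ (k : ℕ) (h : FN (M' * P.p)),
      E.galF (M' * P.p) σ (fn u₁) = fn u₁ * fn u₀ ^ k * h ^ P.p := by
  intro σ hσ
  obtain ⟨k, h1⟩ := hN.gal₁ σ hσ
  rw [E.rho_cls, ← E.cls_pow, ← E.cls_mul] at h1
  obtain ⟨w, hw⟩ := KS.exists_eq_mul_pow h1
  exact ⟨k, w, by simpa [fn, E.coe_galU] using hw⟩

/-- KS-5 -/
theorem stab_fn (hN : NewPair P M' A W u₀ u₁) : ∀ σ ∈ HE P A,
    ∃ h : FN (M' * P.p), E.galF (M' * P.p) σ (fn u₁) = fn u₁ * h ^ P.p := by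
  intro σ hσ
  have h1 := (hN.stab hσ).2.2
  rw [E.rho_cls] at h1
  obtain ⟨w, hw⟩ := KS.exists_eq_mul_pow h1
  exact ⟨w, by simpa [fn, E.coe_galU] using hw⟩

end Fermat.Agent.S44.Depth.Inst

end
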