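/-
S44 / DEPTH, the instance: block I-AUT + BCData (helper51), CONCRETE FORM for an intermediate field
`K0 A ⊆ L ⊆ ℚ̄`.
-/
import Fermat.Agent.S44.Depth.Inst.Aut
import Fermat.Agent.S44.Depth.Inst.KS
import Fermat.Agent.BAD.Bridge.BaseHyp

set_option autoImplicit false
set_option linter.unusedSectionVars false

noncomputable section

namespace Fermat.Agent.S44.Depth.Inst

open ModularCurve AlgebraicCurve Fermat.Agent.S24 Fermat.Agent.GAL Fermat.Agent.S44.X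
  Fermat.Agent.S18.Descent Fermat.Agent.BAD.Bridge Fermat.Agent.BAD.LevelQ.Mod
  Fermat.Agent.Lib.InertiaField
open Fermat.Agent.S18 (IsUnif)

variable {A : ValuationSubring S44.Qb} (L : IntermediateField (K0 A) S44.Qb)

theorem isAlgebraic_L_Qb : Algebra.IsAlgebraic L S44.Qb := by
  have h0 : Algebra.IsAlgebraic ℚ S44.Qb := AlgebraicClosure.isAlgebraic ℚ
  exact Algebra.IsAlgebraic.tower_top (K := ℚ) L

theorem isAlgebraic_K0_L : Algebra.IsAlgebraic (K0 A) L := by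
  have h0 : Algebra.IsAlgebraic ℚ S44.Qb := AlgebraicClosure.isAlgebraic ℚ
  have h1 : Algebra.IsAlgebraic (K0 A) S44.Qb := Algebra.IsAlgebraic.tower_top (K := ℚ) (K0 A)
  exact Algebra.IsAlgebraic.of_injective (IsScalarTower.toAlgHom (K0 A) L S44.Qb)
    (algebraMap L S44.Qb).injective

theorem ext_AL : Ext (A0 A) (AL A L) := fun _ => Iff.rfl

/-- **`BCData` for `FK (K0 A) N ⊆ FK L N`.** -/
theorem bcData_L {p : ℕ} (hp : p.Prime) (hA : A.LiesOverPrime p) (N : ℕ) {ϖ : L} {e : ℕ}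
    {a : ℕ → K0 A} (hE : IsEis (A0 A) (p : K0 A) ϖ e a) :
    letI := algFK (K0 A) L N
    BCData (A0 A) (p : K0 A) (AL A L) ϖ e a (FK (K0 A) N) (FK L N) :=
  haveI := isAlgebraic_K0_L L
  bcData (K0 A) L N (isUnif_A0 A p hp hA) hE (ext_AL L)

variable {L}

theorem resL_algebraMap {τ : S44.GQ} (hτ : τ ∈ Iner A) (h : ∀ z ∈ L, τ z ∈ L)
    (h' : ∀ z ∈ L, τ⁻¹ z ∈ L) (z : K0 A) :
    resL L τ h h' (algebraMap (K0 A) L z) = algebraMap (K0 A) L z :=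
  Subtype.ext ((mem_K0_iff A (z : S44.Qb)).mp z.2 τ hτ)

theorem algebraMap_resL {τ : S44.GQ} (h : ∀ z ∈ L, τ z ∈ L) (h' : ∀ z ∈ L, τ⁻¹ z ∈ L) (z : L) :
    algebraMap L S44.Qb (resL L τ h h' z) = τ (algebraMap L S44.Qb z) := rfl

/-- the automorphism of `FK L N` attached to an element of inertia stabilising `L` -/
def autL (N : ℕ) (τ : S44.GQ) (h : ∀ z ∈ L, τ z ∈ L) (h' : ∀ z ∈ L, τ⁻¹ z ∈ L) :
    FK L N ≃+* FK L N := gal (resL L τ h h') N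

theorem autL_fix (N : ℕ) {τ : S44.GQ} (hτ : τ ∈ Iner A) (h : ∀ z ∈ L, τ z ∈ L)
    (h' : ∀ z ∈ L, τ⁻¹ z ∈ L) (z : FK (K0 A) N) :
    letI := algFK (K0 A) L N
    autL N τ h h' (algebraMap (FK (K0 A) N) (FK L N) z) = algebraMap (FK (K0 A) N) (FK L N) z :=
  autF_fix (K0 A) L N _ (resL_algebraMap hτ h h') z

theorem autL_const (N : ℕ) {τ : S44.GQ} (h : ∀ z ∈ L, τ z ∈ L) (h' : ∀ z ∈ L, τ⁻¹ z ∈ L) (c : L) :
    autL N τ h h' (algebraMap L (FK L N) c) = algebraMap L (FK L N) (resL L τ h h' c) :=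
  autF_const N _ c

theorem bcK_autL (N : ℕ) {τ : S44.GQ} (h : ∀ z ∈ L, τ z ∈ L) (h' : ∀ z ∈ L, τ⁻¹ z ∈ L)
    (f : FK L N) : bcK L N (autL N τ h h' f) = E.galF N τ (bcK L N f) :=
  bcK_gal L N _ τ (algebraMap_resL h h') f

/-- `hτϖ` of `depth_main` -/
theorem autL_unif (N : ℕ) {τ : S44.GQ} (h : ∀ z ∈ L, τ z ∈ L) (h' : ∀ z ∈ L, τ⁻¹ z ∈ L)
    {ϖ δ : L} (e : τ (ϖ : S44.Qb) = ϖ * (1 + δ)) :
    autL N τ h h' (algebraMap L (FK L N) ϖ) = algebraMap L (FK L N) (ϖ * (1 + δ)) := by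
  rw [autL_const]
  congr 1
  exact Subtype.ext e

/-! ### the tower -/

variable {L₁ : IntermediateField (K0 A) S44.Qb}

/-- `ιK` -/
def inclL (h : L₁ ≤ L) : L₁ →+* L := (IntermediateField.inclusion h).toRingHom

theorem coe_inclL (h : L₁ ≤ L) (z : L₁) : ((inclL h z : L) : S44.Qb) = z := rfl

/-- `ι` -/
def towL (N : ℕ) (h : L₁ ≤ L) : FK L₁ N →+* FK L N := tow N (inclL h)

theorem towL_up (N : ℕ) (h : L₁ ≤ L) (z : FK (K0 A) N) :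
    letI := algFK (K0 A) L₁ N
    letI := algFK (K0 A) L N
    towL N h (algebraMap (FK (K0 A) N) (FK L₁ N) z) = algebraMap (FK (K0 A) N) (FK L N) z :=
  tow_up (K₀ := K0 A) (K₁ := L₁) (K := L) N (inclL h) (fun _ => rfl) z

theorem towL_const (N : ℕ) (h : L₁ ≤ L) (c : L₁) :
    towL N h (algebraMap L₁ (FK L₁ N) c) = algebraMap L (FK L N) (inclL h c) :=
  tow_const N (inclL h) c

theorem bcK_towL (N : ℕ) (h : L₁ ≤ L) (f : FK L₁ N) : bcK L N (towL N h f) = bcK L₁ N f :=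
  bcK_tow N (inclL h) (fun _ => rfl) f

theorem Lf_mono {H H' : Subgroup S44.GQ} (hH : H ≤ Iner A) (hH' : H' ≤ Iner A) (h : H ≤ H') :
    Lf A H' hH' ≤ Lf A H hH := fun _ hz σ hσ => hz σ (h hσ)

theorem Lmu_le_LE {P : FreyPackage} {M' : ℕ} [NeZero M'] {W : WeierstrassCurve ℤ}
    {u₀ u₁ : E.kum (M' * P.p) P.p} (hN : NewPair P M' A W u₀ u₁) : Lmu A P.p ≤ LE P A :=
  Lf_mono _ _ (HE_le_Hmu hN)

/-! ### the relations -/

/-- **`hrel`** -/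
theorem exists_hrel_L {N n : ℕ} (hn : n ≠ 0) {τ : S44.GQ} (h : ∀ z ∈ L, τ z ∈ L)
    (h' : ∀ z ∈ L, τ⁻¹ z ∈ L) (hL : L₁ ≤ L) {u : FK L N} {u₀ : FK L₁ N} (hu : u ≠ 0)
    (hu₀ : u₀ ≠ 0) {U₁ U₀ g₁ g₀ hh : FN N} (hg₁ : g₁ ≠ 0) (hg₀ : g₀ ≠ 0)
    (e₁ : bcK L N u = U₁ * g₁ ^ n) (e₀ : bcK L₁ N u₀ = U₀ * g₀ ^ n) {k : ℕ}
    (hrel : E.galF N τ U₁ = U₁ * U₀ ^ k * hh ^ n) :
    ∃ (cst : L) (h'' : FK L N), cst ≠ 0 ∧ h'' ≠ 0 ∧
      autL N τ h h' u = u * towL N hL u₀ ^ k * algebraMap L (FK L N) cst * h'' ^ n :=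
  haveI := isAlgebraic_L_Qb L
  exists_hrel hn _ τ (algebraMap_resL h h') hu ((map_ne_zero _).2 hu₀) hg₁ hg₀ e₁
    (by rw [bcK_towL, e₀]) hrel

/-- **`hrel₀`** -/
theorem exists_hrel₀_L {N n : ℕ} (hn : n ≠ 0) {σ : S44.GQ} (h : ∀ z ∈ L, σ z ∈ L)
    (h' : ∀ z ∈ L, σ⁻¹ z ∈ L) {u₀ : FK L N} (hu₀ : u₀ ≠ 0) {U₀ g₀ hh : FN N} (hg₀ : g₀ ≠ 0)
    (e₀ : bcK L N u₀ = U₀ * g₀ ^ n) {m : ℕ} (hrel : E.galF N σ U₀ = U₀ ^ m * hh ^ n) :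
    ∃ (cst : L) (h'' : FK L N), cst ≠ 0 ∧ h'' ≠ 0 ∧
      autL N σ h h' u₀ = u₀ ^ m * algebraMap L (FK L N) cst * h'' ^ n :=
  haveI := isAlgebraic_L_Qb L
  exists_hrel₀ hn _ σ (algebraMap_resL h h') hu₀ hg₀ e₀ hrel

end Fermat.Agent.S44.Depth.Inst

end
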